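/-
S48lib / X1 / IgusaInst / OmegaGalData  (helper3)

The characteristic-zero Galois data `GalData M (zq M)` (helper8's `Igusa/Inst`) of the field
`Ω₀(M) = ℚ̄(j(Q^M), τ_v)`, from `Field/Omega` and `Field/Galois`.
-/
import Fermat.Agent.S48lib.X1.Igusa.Inst
import Fermat.Agent.S48lib.X1.Field.Galois
import Fermat.Agent.S18lib.Haupt.BarEq

set_option autoImplicit false
set_option linter.unusedSectionVars false

noncomputable section

namespace Fermat.Agent.S48lib.X1

open scoped MatrixGroups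
open ModularCurve CongruenceSubgroup Wp
open Fermat.Agent.S18lib Fermat.Agent.S18lib.Haupt
open Fermat.Agent.S28lib (twist)

local notation "Qb" => AlgebraicClosure ℚ

variable {M : ℕ} [NeZero M]

/-! ### `FBar N` inside `Ω₀(M)` -/

theorem qExpand_algebraMap (a : Qb) :
    qExpand Qb M (algebraMap Qb (LaurentSeries Qb) a) = algebraMap Qb (LaurentSeries Qb) a := by
  rw [algebraMap_laurentSeries_eq_single]
  exact qExpand_C (R := Qb) (N := M) a

/-- **(J_M)**: `FBar M` in the variable `q = Q^M` lies in `Ω₀(M)` -/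
theorem qExpand_mem_Omega0 (hM : 1 < M) {y : LaurentSeries Qb}
    (hy : y ∈ modularFunctionFieldBar M) : qExpand Qb M y ∈ Omega0 M := by
  rw [modularFunctionFieldBar_eq M] at hy
  have h : (modularFunctionFieldFullC Qb M).toSubfield ≤
      (Omega0 M).toSubfield.comap (qExpand Qb M) := by
    rw [modularFunctionFieldFullC, IntermediateField.adjoin_toSubfield, Subfield.closure_le]
    rintro x (⟨a, rfl⟩ | ⟨d, hd, hdM, rfl⟩)
    · show qExpand Qb M (algebraMap Qb (LaurentSeries Qb) a) ∈ Omega0 M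
      rw [qExpand_algebraMap]
      exact IntermediateField.algebraMap_mem _ a
    · have := hd
      show qExpand Qb M (qExpand Qb d (jqModC Qb)) ∈ Omega0 M
      rw [qExpand_qExpand]
      exact jQd_mem_Omega0 hM d hdM
  exact h hy

theorem jqModC_mem_bar (N : ℕ) [NeZero N] : jqModC Qb ∈ modularFunctionFieldBar N := by
  rw [modularFunctionFieldBar_eq N]
  have h := IntermediateField.subset_adjoin Qb (divisorExpansionsC Qb N)
    (mem_divisorExpansionsC Qb N (one_dvd N))
  rwa [qExpand_one_apply] at h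

theorem jqNModC_mem_bar : jqNModC Qb M ∈ modularFunctionFieldBar M := by
  rw [modularFunctionFieldBar_eq M]
  exact IntermediateField.subset_adjoin Qb (divisorExpansionsC Qb M)
    (mem_divisorExpansionsC Qb M dvd_rfl)

/-- a series in `ℚ̄(S)`, `S ⊆ qExpand M '' F`, is `qExpand M` of an element of `F` -/
theorem exists_qExpand_eq_of_mem_adjoin (F : IntermediateField Qb (LaurentSeries Qb))
    (S : Set (LaurentSeries Qb)) (hS : ∀ s ∈ S, ∃ y ∈ F, qExpand Qb M y = s)
    {x : LaurentSeries Qb} (hx : x ∈ IntermediateField.adjoin Qb S) :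
    ∃ y ∈ F, qExpand Qb M y = x := by
  have h : (IntermediateField.adjoin Qb S).toSubfield ≤ F.toSubfield.map (qExpand Qb M) := by
    rw [IntermediateField.adjoin_toSubfield, Subfield.closure_le]
    rintro x (⟨a, rfl⟩ | hx)
    · exact ⟨algebraMap Qb (LaurentSeries Qb) a, F.algebraMap_mem a, qExpand_algebraMap a⟩
    · obtain ⟨y, hy, rfl⟩ := hS x hx
      exact ⟨y, hy, rfl⟩
  obtain ⟨y, hy, rfl⟩ := h hx
  exact ⟨y, hy, rfl⟩

/-! ### `ρ` fixes `ℚ̄(j)` -/

theorem adjoin_jQ_le_Omega0 : IntermediateField.adjoin Qb {jqNModC Qb M} ≤ Omega0 M := by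
  rw [IntermediateField.adjoin_le_iff]
  rintro s rfl
  exact jQ_mem_Omega0 M

theorem rho_eq_of_mem_adjoin_jQ (γ : SL(2, ℤ)) {y : LaurentSeries Qb}
    (hy : y ∈ IntermediateField.adjoin Qb {jqNModC Qb M}) (h : y ∈ Omega0 M) :
    rho γ (⟨y, h⟩ : ↥(Omega0 M)) = ⟨y, h⟩ := by
  induction hy using IntermediateField.adjoin_induction with
  | mem x hx =>
    have : x = jqNModC Qb M := hx
    subst this
    exact rho_jO γ
  | algebraMap a => exact (rho γ).commutes a
  | add a b ha hb iha ihb =>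
    have ha' := adjoin_jQ_le_Omega0 ha
    have hb' := adjoin_jQ_le_Omega0 hb
    have e : (⟨a + b, h⟩ : ↥(Omega0 M)) = ⟨a, ha'⟩ + ⟨b, hb'⟩ := rfl
    rw [e, map_add, iha ha', ihb hb']
  | inv a ha iha =>
    have ha' := adjoin_jQ_le_Omega0 ha
    have e : (⟨a⁻¹, h⟩ : ↥(Omega0 M)) = (⟨a, ha'⟩ : ↥(Omega0 M))⁻¹ := rfl
    rw [e, map_inv₀, iha ha']
  | mul a b ha hb iha ihb =>
    have ha' := adjoin_jQ_le_Omega0 ha
    have hb' := adjoin_jQ_le_Omega0 hb
    have e : (⟨a * b, h⟩ : ↥(Omega0 M)) = ⟨a, ha'⟩ * ⟨b, hb'⟩ := rfl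
    rw [e, map_mul, iha ha', ihb hb']

theorem qExpand_mem_adjoin_jQ {y : LaurentSeries Qb} (hy : y ∈ modularFunctionFieldBar 1) :
    qExpand Qb M y ∈ IntermediateField.adjoin Qb {jqNModC Qb M} := by
  rw [modularFunctionFieldBar_eq 1] at hy
  have h : (modularFunctionFieldFullC Qb 1).toSubfield ≤
      (IntermediateField.adjoin Qb {jqNModC Qb M}).toSubfield.comap (qExpand Qb M) := by
    rw [modularFunctionFieldFullC, IntermediateField.adjoin_toSubfield, Subfield.closure_le]
    rintro x (⟨a, rfl⟩ | ⟨d, hd, hd1, rfl⟩)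
    · show qExpand Qb M (algebraMap Qb (LaurentSeries Qb) a) ∈
        IntermediateField.adjoin Qb {jqNModC Qb M}
      rw [qExpand_algebraMap]
      exact IntermediateField.algebraMap_mem _ a
    · have := hd
      have : d = 1 := Nat.dvd_one.mp hd1
      subst this
      show qExpand Qb M (qExpand Qb 1 (jqModC Qb)) ∈ IntermediateField.adjoin Qb {jqNModC Qb M}
      rw [qExpand_one_apply]
      exact IntermediateField.subset_adjoin Qb _ rfl
  exact h hy

/-! ### the Galois data -/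

/-- **the Galois data of `Ω₀(M)`** -/
def omegaGalData (hM : 1 < M) : Igusa.GalData M (zq M) where
  Ω := Omega0 M
  rho := rho
  rho_Gamma := fun _ hγ => rho_of_mem hγ
  level_mem := fun y => qExpand_mem_Omega0 hM y.2
  rho_base := fun γ y => by
    refine rho_eq_of_mem_adjoin_jQ γ ?_ _
    rw [Igusa.coe_inclOne]
    exact qExpand_mem_adjoin_jQ y.2
  fixed := fun x hx => by
    obtain ⟨y, hy, hyx⟩ := exists_qExpand_eq_of_mem_adjoin (M := M) (modularFunctionFieldBar 1)
      {jqNModC Qb M} (by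
        rintro s rfl
        exact ⟨jqModC Qb, jqModC_mem_bar 1, rfl⟩) (mem_adjoin_jQ_of_fixed x hx)
    exact ⟨⟨y, hy⟩, hyx⟩
  tau_mem := fun _ _ hv => tauK_mem_Omega0 hv
  rho_tau := fun γ a b hv =>
    ⟨_, _, nz_rowMul_inv γ hv, congrArg Subtype.val (rho_tauO γ hv)⟩
  ξ := (zq M)⁻¹
  ξ_pow := by rw [inv_pow, zq_pow, inv_one]
  rho_T := coe_rho_T
  fixed0 := fun x hx => by
    obtain ⟨y, hy, hyx⟩ := exists_qExpand_eq_of_mem_adjoin (M := M) (modularFunctionFieldBar M)
      {jqNModC Qb M, jqNModC Qb (M * M)} (by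
        rintro s (rfl | rfl)
        · exact ⟨jqModC Qb, jqModC_mem_bar M, rfl⟩
        · refine ⟨jqNModC Qb M, jqNModC_mem_bar, ?_⟩
          rw [jqNModC, qExpand_qExpand, jqNModC]) (mem_adjoin_of_fixed_Gamma0 x hx)
    exact ⟨⟨y, hy⟩, hyx⟩

/-! ### Igusa's theorem for `Ω₀(M)`, unconditionally -/

section Igusa

open Polynomial IsLocalRing Igusa

attribute [local instance] Igusa.GalData.action Igusa.GalData.algebraBase

/-- **Igusa's theorem for `Ω₀(M)`** (helper8's `GalData.igusa_tau` with the Galois data of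
`Field/Galois`): for `p ∤ M`, `A ⊆ ℚ̄` over `p` and `v ≢ 0`, the orbit polynomial of `τ_v` over
`ℚ̄(j)` has coefficients in the Gauss ring, and irreducible separable reduction. -/
theorem igusa_tau_Omega0 (A : ValuationSubring Qb) {p : ℕ} [Fact p.Prime]
    (hA : A.LiesOverPrime p) (hpM : ¬ p ∣ M) (hM : 1 < M) (a b : ℤ)
    (hv : ¬ ((M : ℤ) ∣ a ∧ (M : ℤ) ∣ b)) :
    ∃ P₀ : (baseRing A hA)[X], P₀.Monic ∧
      P₀.map (algebraMap (baseRing A hA) (FBar 1)) =
        minpoly (FBar 1) ((omegaGalData hM).tauΩ a b hv) ∧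
      P₀.map (algebraMap (baseRing A hA) (omegaGalData hM).Ω) =
        conjPoly (SL(2, ZMod M)) ((omegaGalData hM).tauΩ a b hv) ∧
      P₀.natDegree = (conjSet (SL(2, ZMod M)) ((omegaGalData hM).tauΩ a b hv)).card ∧
      Irreducible (P₀.map (residue (baseRing A hA))) ∧
      (P₀.map (residue (baseRing A hA))).Separable :=
  (omegaGalData hM).igusa_tau A hA hpM (zq_isPrimitiveRoot M) hM a b hv

end Igusa

end Fermat.Agent.S48lib.X1
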