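/-
S48lib / X1 / IgusaInst / EmbedF1  (helper3)

The embedding `FBar₁(M) → Ω₀(M)`, `q ↦ Q^M`, compatible with the `ℚ̄(j) = FBar 1`-algebra
structures, sending `τ_(0,1)` to `τ_(0,c)` (`ζ̄_M = ζ_M^c`); transport of Igusa's theorem
(`igusa_tau_Omega0`) to the minimal polynomial of `τ_(0,1)` over `ℚ̄(j)` inside `FBar₁(M)`.
-/
import Fermat.Agent.S48lib.X1.IgusaInst.OmegaGalData
import Fermat.Agent.S48lib.X1.Igusa.Inert
import Fermat.Agent.S48lib.X1.Field.FixedConv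

set_option autoImplicit false
set_option linter.unusedSectionVars false

noncomputable section

namespace Fermat.Agent.S48lib.X1

open scoped MatrixGroups
open ModularCurve CongruenceSubgroup Wp Polynomial IsLocalRing
open Fermat.Agent.S18lib Fermat.Agent.S18lib.Haupt
open Igusa

local notation "Qb" => AlgebraicClosure ℚ

variable {M : ℕ} [NeZero M]

attribute [local instance] Igusa.algebraF1 Igusa.GalData.action Igusa.GalData.algebraBase

theorem qExpand_coe_mem_Omega0 (x : FB1 M) :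
    qExpand Qb M (x : LaurentSeries Qb) ∈ Omega0 M :=
  expandField_F1_le (mem_expandField.2 ⟨x, x.2, rfl⟩)

/-- **the embedding `FBar₁(M) → Ω₀(M)`**, `q ↦ Q^M` -/
def embF1 (hM : 1 < M) : FB1 M →+* (omegaGalData hM).Ω where
  toFun x := ⟨qExpand Qb M (x : LaurentSeries Qb), qExpand_coe_mem_Omega0 x⟩
  map_one' := Subtype.ext (map_one _)
  map_mul' _ _ := Subtype.ext (map_mul _ _ _)
  map_zero' := Subtype.ext (map_zero _)
  map_add' _ _ := Subtype.ext (map_add _ _ _)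

@[simp] theorem coe_embF1 (hM : 1 < M) (x : FB1 M) :
    ((embF1 hM x : (omegaGalData hM).Ω) : LaurentSeries Qb) =
      qExpand Qb M (x : LaurentSeries Qb) := rfl

theorem embF1_injective (hM : 1 < M) : Function.Injective (embF1 hM) := (embF1 hM).injective

theorem embF1_inclF1 (hM : 1 < M) (y : FBar 1) :
    embF1 hM (inclF1 M y) = (omegaGalData hM).baseHom y := by
  apply Subtype.ext
  rw [coe_embF1, GalData.coe_baseHom, coe_inclF1]

/-- the embedding as a homomorphism of `FBar 1`-algebras -/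
def embF1Alg (hM : 1 < M) : FB1 M →ₐ[FBar 1] (omegaGalData hM).Ω :=
  { embF1 hM with
    commutes' := fun y => embF1_inclF1 hM y }

@[simp] theorem embF1Alg_apply (hM : 1 < M) (x : FB1 M) : embF1Alg hM x = embF1 hM x := rfl

/-- the exponent `c` with `ζ̄_M = ζ_M^c` -/
def cExp (M : ℕ) [NeZero M] : ℤ := (exists_zbar_eq_zq_zpow M).choose

theorem zbar_eq_zq_zpow (M : ℕ) [NeZero M] : zbar M = zq M ^ cExp M :=
  (exists_zbar_eq_zq_zpow M).choose_spec.1

theorem isCoprime_cExp (M : ℕ) [NeZero M] : IsCoprime (cExp M) (M : ℤ) :=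
  (exists_zbar_eq_zq_zpow M).choose_spec.2

theorem nz_cExp (hM : 1 < M) : ¬ ((M : ℤ) ∣ 0 ∧ (M : ℤ) ∣ cExp M * 1) := fun h =>
  not_dvd_mul_of_isCoprime (isCoprime_cExp M) (not_dvd_one hM) h.2

/-- **`τ_(0,1) ∈ FBar₁(M)` goes to `τ_(0,c) ∈ Ω₀(M)`** -/
theorem embF1_tauBar (hM : 1 < M) :
    embF1 hM (tauBar hM) = (omegaGalData hM).tauΩ 0 (cExp M * 1) (nz_cExp hM) := by
  apply Subtype.ext
  rw [coe_embF1, GalData.coe_tauΩ, coe_tauBar, zbar_eq_zq_zpow, tauqL_zpow, qExpand_tauqL]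

/-- the minimal polynomials over `ℚ̄(j)` agree -/
theorem minpoly_tauBar_eq (hM : 1 < M) :
    minpoly (FBar 1) (tauBar hM) =
      minpoly (FBar 1) ((omegaGalData hM).tauΩ 0 (cExp M * 1) (nz_cExp hM)) := by
  rw [← embF1_tauBar hM, ← embF1Alg_apply]
  exact (minpoly.algHom_eq (embF1Alg hM) (embF1_injective hM) (tauBar hM)).symm

/-- **Igusa for `τ_(0,1) ∈ FBar₁(M)`**: its minimal polynomial over `ℚ̄(j)` has coefficients in the
Gauss ring `B₀` of `ℚ̄(j)` at `A`, degree `[SL₂(ℤ) : ±Γ₁(M)]`, and irreducible separable reduction. -/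
theorem exists_P0_tauBar (A : ValuationSubring Qb) {p : ℕ} [Fact p.Prime]
    (hA : A.LiesOverPrime p) (hpM : ¬ p ∣ M) (hM : 1 < M) :
    ∃ P₀ : (baseRing A hA)[X], P₀.Monic ∧
      P₀.map (algebraMap (baseRing A hA) (FBar 1)) = minpoly (FBar 1) (tauBar hM) ∧
      P₀.map (algebraMap (baseRing A hA) (omegaGalData hM).Ω) =
        conjPoly (SL(2, ZMod M)) ((omegaGalData hM).tauΩ 0 (cExp M * 1) (nz_cExp hM)) ∧
      P₀.natDegree = Fintype.card (SL(2, ℤ) ⧸ pmGamma1 M) ∧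
      Irreducible (P₀.map (residue (baseRing A hA))) ∧
      (P₀.map (residue (baseRing A hA))).Separable := by
  obtain ⟨P₀, hmon, hmin, hconj, -, hirr, hsep⟩ :=
    igusa_tau_Omega0 A hA hpM hM 0 (cExp M * 1) (nz_cExp hM)
  refine ⟨P₀, hmon, hmin.trans (minpoly_tauBar_eq hM).symm, hconj, ?_, hirr, hsep⟩
  have h1 : (P₀.map (algebraMap (baseRing A hA) (FBar 1))).natDegree = P₀.natDegree :=
    hmon.natDegree_map _
  rw [← h1, hmin, ← minpoly_tauBar_eq hM]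
  have h2 := (pbF1 hM).natDegree_minpoly
  rw [pbF1_gen] at h2
  rw [h2]
  rfl

/-! ### all the `τ_(0,b)` -/

/-- `τ_(0,b)` as an element of `FBar₁(M)` -/
def tauBarB {b : ℤ} (hb : ¬ (M : ℤ) ∣ b) : FB1 M :=
  ⟨tauqL Qb M (zbar M) b, tauqL_mem_FBar1 M hb⟩

@[simp] theorem coe_tauBarB {b : ℤ} (hb : ¬ (M : ℤ) ∣ b) :
    ((tauBarB hb : FB1 M) : LaurentSeries Qb) = tauqL Qb M (zbar M) b := rfl

theorem tauBarB_one (hM : 1 < M) : tauBarB (not_dvd_one hM) = tauBar hM := rfl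

theorem nz_cExp_mul {b : ℤ} (hb : ¬ (M : ℤ) ∣ b) :
    ¬ ((M : ℤ) ∣ 0 ∧ (M : ℤ) ∣ cExp M * b) := fun h =>
  not_dvd_mul_of_isCoprime (isCoprime_cExp M) hb h.2

theorem embF1_tauBarB (hM : 1 < M) {b : ℤ} (hb : ¬ (M : ℤ) ∣ b) :
    embF1 hM (tauBarB hb) = (omegaGalData hM).tauΩ 0 (cExp M * b) (nz_cExp_mul hb) := by
  apply Subtype.ext
  rw [coe_embF1, GalData.coe_tauΩ, coe_tauBarB, zbar_eq_zq_zpow, tauqL_zpow, qExpand_tauqL]

theorem minpoly_tauBarB_eq (hM : 1 < M) {b : ℤ} (hb : ¬ (M : ℤ) ∣ b) :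
    minpoly (FBar 1) (tauBarB hb) =
      minpoly (FBar 1) ((omegaGalData hM).tauΩ 0 (cExp M * b) (nz_cExp_mul hb)) := by
  rw [← embF1_tauBarB hM hb, ← embF1Alg_apply]
  exact (minpoly.algHom_eq (embF1Alg hM) (embF1_injective hM) (tauBarB hb)).symm

/-- **every `τ_(0,b) ∈ FBar₁(M)` is integral over the Gauss ring `B₀` of `ℚ̄(j)`**: its minimal
polynomial over `ℚ̄(j)` has coefficients in `B₀` (and separable reduction). -/
theorem exists_P0_tauBarB (A : ValuationSubring Qb) {p : ℕ} [Fact p.Prime]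
    (hA : A.LiesOverPrime p) (hpM : ¬ p ∣ M) (hM : 1 < M) {b : ℤ} (hb : ¬ (M : ℤ) ∣ b) :
    ∃ P₀ : (baseRing A hA)[X], P₀.Monic ∧
      P₀.map (algebraMap (baseRing A hA) (FBar 1)) = minpoly (FBar 1) (tauBarB hb) ∧
      Irreducible (P₀.map (residue (baseRing A hA))) ∧
      (P₀.map (residue (baseRing A hA))).Separable := by
  obtain ⟨P₀, hmon, hmin, -, -, hirr, hsep⟩ :=
    igusa_tau_Omega0 A hA hpM hM 0 (cExp M * b) (nz_cExp_mul hb)
  exact ⟨P₀, hmon, hmin.trans (minpoly_tauBarB_eq hM hb).symm, hirr, hsep⟩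

/-- integrality of `τ_(0,b)` over `B₀`, as a statement about the ring hom `B₀ → FBar 1 → FBar₁(M)` -/
theorem isIntegralElem_tauBarB (A : ValuationSubring Qb) {p : ℕ} [Fact p.Prime]
    (hA : A.LiesOverPrime p) (hpM : ¬ p ∣ M) (hM : 1 < M) {b : ℤ} (hb : ¬ (M : ℤ) ∣ b) :
    ((inclF1 M).toRingHom.comp (baseRing A hA).subtype).IsIntegralElem (tauBarB hb) := by
  obtain ⟨P₀, hmon, hmin, -, -⟩ := exists_P0_tauBarB A hA hpM hM hb
  refine ⟨P₀, hmon, ?_⟩
  have h1 : Polynomial.aeval (tauBarB hb)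
      (P₀.map (algebraMap (baseRing A hA) (FBar 1))) = 0 := by
    rw [hmin]
    exact minpoly.aeval _ _
  rw [Polynomial.aeval_def, Polynomial.eval₂_map] at h1
  exact h1

end Fermat.Agent.S48lib.X1
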