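/-
S48lib / X1 / IgusaInst / RedRel  (helper3)

Reduction of polynomial relations: if `P ∈ O[X]` (`O` the ring of a Gauss datum compatible with
coefficientwise reduction of series) kills an `A`-integral series `x`, then the reduction of `P`
kills the reduction of `x`.  Instance: the reduction `P̄₀` of the minimal polynomial of `τ_(0,1)`
over `ℚ̄(j)` kills `τ̄_(0,1)`.
-/
import Fermat.Agent.S48lib.X1.IgusaInst.EmbedF1
import Fermat.Agent.S48lib.X1.Field.Res

set_option autoImplicit false
set_option linter.unusedSectionVars false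

noncomputable section

namespace Fermat.Agent.S48lib.X1

open scoped MatrixGroups
open ModularCurve Polynomial IsLocalRing
open Fermat.Agent.S18lib
open Igusa

local notation "Qb" => AlgebraicClosure ℚ

section Generic

variable {A : ValuationSubring Qb}
variable {F : Type*} [Field F] [Algebra Qb F]
variable {Fk : Type*} [Field Fk] [Algebra (IsLocalRing.ResidueField A) Fk]
variable {G : GaussDatum A F Fk} {ι : F →+* LaurentSeries Qb}
  {ιk : Fk →+* LaurentSeries (IsLocalRing.ResidueField A)}

/-- the ring homomorphism `O → 𝒪′` induced by a compatible expansion -/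
def toFracHom (h : SeriesCompat G ι ιk) : G.O →+* fracSubring A where
  toFun c := ⟨ι (c : F), h.mem_fracSubring c.2⟩
  map_one' := Subtype.ext (map_one ι)
  map_mul' a b := Subtype.ext (map_mul ι (a : F) (b : F))
  map_zero' := Subtype.ext (map_zero ι)
  map_add' a b := Subtype.ext (map_add ι (a : F) (b : F))

theorem fracRed_toFracHom (h : SeriesCompat G ι ιk) (c : G.O) :
    fracRed A (toFracHom h c) = ιk (G.red c) :=
  h.fracRed_eq c.2

/-- **reduction of a polynomial relation** -/
theorem eval₂_fracRed_eq_zero (h : SeriesCompat G ι ιk) (P : G.O[X])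
    {x : LaurentSeries Qb} (hx : x ∈ fracSubring A)
    (hP : eval₂ (ι.comp G.O.subtype) x P = 0) :
    eval₂ ιk (fracRed A ⟨x, hx⟩) (P.map G.red) = 0 := by
  have h1 : eval₂ (toFracHom h) (⟨x, hx⟩ : fracSubring A) P = 0 := by
    apply Subtype.ext
    have h2 := Polynomial.hom_eval₂ P (toFracHom h) (fracSubring A).subtype ⟨x, hx⟩
    rw [ZeroMemClass.coe_zero]
    exact h2.trans hP
  have h3 := Polynomial.hom_eval₂ P (toFracHom h) (fracRed A) ⟨x, hx⟩
  rw [h1, map_zero] at h3
  rw [Polynomial.eval₂_map]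
  have h4 : (fracRed A).comp (toFracHom h) = ιk.comp G.red := RingHom.ext fun c => fracRed_toFracHom h c
  rw [← h4]
  exact h3.symm

/-! ### `ResidueField O ≃ Fk` -/

section ResEquiv

variable {L : Type*} [Field L] {A' : ValuationSubring L}
variable {F' : Type*} [Field F'] [Algebra L F']
variable {Fk' : Type*} [Field Fk'] [Algebra (IsLocalRing.ResidueField A') Fk']
variable (G' : GaussDatum A' F' Fk')

theorem ker_red_eq : RingHom.ker G'.red = IsLocalRing.maximalIdeal G'.O := by
  ext y
  rw [RingHom.mem_ker, G'.red_eq_zero_iff]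

/-- the residue field of the Gauss valuation ring is `Fk` -/
def resEquivRed : IsLocalRing.ResidueField G'.O ≃+* Fk' :=
  (Ideal.quotEquivOfEq (ker_red_eq G').symm).trans
    (RingHom.quotientKerEquivOfSurjective G'.red_surjective)

theorem resEquivRed_residue (y : G'.O) : resEquivRed G' (IsLocalRing.residue G'.O y) = G'.red y :=
  rfl

theorem map_red_eq (P : G'.O[X]) :
    P.map G'.red = (P.map (IsLocalRing.residue G'.O)).map (resEquivRed G' : _ →+* Fk') := by
  rw [Polynomial.map_map]
  congr 1

theorem irreducible_map_red {P : G'.O[X]} (h : Irreducible (P.map (IsLocalRing.residue G'.O))) :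
    Irreducible (P.map G'.red) := by
  rw [map_red_eq]
  exact (MulEquiv.irreducible_iff (Polynomial.mapEquiv (resEquivRed G'))).2 h

theorem separable_map_red {P : G'.O[X]} (h : (P.map (IsLocalRing.residue G'.O)).Separable) :
    (P.map G'.red).Separable := by
  rw [map_red_eq]
  exact h.map

end ResEquiv

end Generic

/-! ### the instance `τ_(0,b)` -/

variable {M : ℕ} [NeZero M]

attribute [local instance] Igusa.algebraF1

/-- **`P̄₀(τ̄_(0,b)) = 0`**: if `P₀ ∈ B₀[X]` lifts the minimal polynomial of `τ_(0,b)` over `ℚ̄(j)`,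
its reduction kills `τ̄_(0,b)` in `k((q))`. -/
theorem eval₂_tauRes_eq_zero (A : ValuationSubring Qb) {p : ℕ} [Fact p.Prime]
    (hA : A.LiesOverPrime p) (hpM : ¬ p ∣ M) {b : ℤ} (hb : ¬ (M : ℤ) ∣ b)
    (P₀ : (baseRing A hA)[X])
    (hP : P₀.map (algebraMap (baseRing A hA) (FBar 1)) = minpoly (FBar 1) (tauBarB hb)) :
    eval₂ (inclRes A 1) (tauqL (IsLocalRing.ResidueField A) M (zRes A M) b)
      (P₀.map (baseDatum A hA).red) = 0 := by
  have hcompat := seriesCompat_gaussDatum A 1 (not_dvd_one_of_prime (ℓ := p)) hA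
  have hx : tauqL Qb M (zbar M) b ∈ fracSubring A := by
    rw [← toL_tauqA hA hpM b]
    exact toL_mem_fracSubring _
  have h0 : Polynomial.aeval (tauBarB hb)
      (P₀.map (algebraMap (baseRing A hA) (FBar 1))) = 0 := by
    rw [hP]
    exact minpoly.aeval _ _
  rw [Polynomial.aeval_def, Polynomial.eval₂_map] at h0
  have h1 := Polynomial.hom_eval₂ P₀
    ((algebraMap (FBar 1) (FB1 M)).comp (algebraMap (baseRing A hA) (FBar 1)))
    (laurentBaseChange Qb (F1 M)).val.toRingHom (tauBarB hb)
  rw [h0, map_zero] at h1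
  have h2 : ((laurentBaseChange Qb (F1 M)).val.toRingHom).comp
      ((algebraMap (FBar 1) (FB1 M)).comp (algebraMap (baseRing A hA) (FBar 1))) =
      (inclBar 1).comp (baseDatum A hA).O.subtype := by
    refine RingHom.ext fun c => ?_
    exact coe_inclF1 M (c : FBar 1)
  rw [h2] at h1
  have h3 := eval₂_fracRed_eq_zero (G := baseDatum A hA) hcompat P₀ hx h1.symm
  have h4 : fracRed A ⟨tauqL Qb M (zbar M) b, hx⟩ =
      tauqL (IsLocalRing.ResidueField A) M (zRes A M) b := by
    have := fracRed_toL (tauqA hA hpM b)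
    rw [toK_tauqA] at this
    rw [← this]
    congr 1
    exact Subtype.ext (toL_tauqA hA hpM b).symm
  rw [h4] at h3
  exact h3

/-- **the complete Igusa package for `τ_(0,1)`** (all inputs `pO`, `monic`, `map_subtype` and the
residue-side facts for `map_red` of `S18lib.InertInput (baseDatum A hA) (FB1 M) _`): a monic
`P₀ ∈ B₀[X]` lifting the minimal polynomial of `τ_(0,1)` over `ℚ̄(j)`, of degree
`[SL₂(ℤ) : ±Γ₁(M)]`, whose reduction `P̄₀ ∈ k(j̄)[X]` is irreducible, separable and kills
`τ̄_(0,1)`. -/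
theorem exists_P0_red_tauBar (A : ValuationSubring Qb) {p : ℕ} [Fact p.Prime]
    (hA : A.LiesOverPrime p) (hpM : ¬ p ∣ M) (hM : 1 < M) :
    ∃ P₀ : (baseDatum A hA).O[X], P₀.Monic ∧
      P₀.map (baseDatum A hA).O.subtype = minpoly (FBar 1) (tauBar hM) ∧
      P₀.natDegree = Fintype.card (SL(2, ℤ) ⧸ Wp.pmGamma1 M) ∧
      Irreducible (P₀.map (baseDatum A hA).red) ∧
      (P₀.map (baseDatum A hA).red).Separable ∧
      eval₂ (inclRes A 1) (tauqL (IsLocalRing.ResidueField A) M (zRes A M) 1)
        (P₀.map (baseDatum A hA).red) = 0 := by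
  obtain ⟨P₀, hmon, hmin, -, hdeg, hirr, hsep⟩ := exists_P0_tauBar A hA hpM hM
  refine ⟨P₀, hmon, hmin, hdeg, irreducible_map_red (baseDatum A hA) hirr,
    separable_map_red (baseDatum A hA) hsep, ?_⟩
  exact eval₂_tauRes_eq_zero A hA hpM (not_dvd_one hM) P₀ hmin

end Fermat.Agent.S48lib.X1
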