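/-
S48lib / X1 / IgusaInst / ResGen  (helper3)

From an inert input `I` over the level-one Gauss datum with upstairs field `FBar₁(M)` whose datum is a
coefficientwise reduction: every `τ_(0,b)` lies in `I.datum.O` (it is integral over `B₀`), hence
every `τ̄_(0,b)` is in the image of the residue field: `FRes1 A M ⊆ ιk'(Fk')`.
-/
import Fermat.Agent.S48lib.X1.IgusaInst.RedRel
import Fermat.Agent.S48lib.X1.Igusa.InertSeries

set_option autoImplicit false
set_option linter.unusedSectionVars false

noncomputable section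

namespace Fermat.Agent.S48lib.X1

open scoped MatrixGroups
open ModularCurve Polynomial IsLocalRing
open Fermat.Agent.S18lib
open Igusa

local notation "Qb" => AlgebraicClosure ℚ

/-- an element integral over a ring mapping into a valuation subring lies in it -/
theorem mem_valuationSubring_of_isIntegralElem {R F' : Type*} [CommRing R] [Field F']
    (O' : ValuationSubring F') (f : R →+* F') (hf : ∀ r, f r ∈ O') {x : F'}
    (hx : f.IsIntegralElem x) : x ∈ O' := by
  obtain ⟨P, hP, hPx⟩ := hx
  let f' : R →+* O' := f.codRestrict O'.toSubring hf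
  have hint : IsIntegral O' x := by
    refine ⟨P.map f', hP.map _, ?_⟩
    rw [Polynomial.eval₂_map]
    have : (algebraMap O' F').comp f' = f := RingHom.ext fun r => rfl
    rw [this]
    exact hPx
  obtain ⟨y, hy⟩ := IsIntegrallyClosed.isIntegral_iff.mp hint
  rw [← hy]
  exact y.2

variable {M : ℕ} [NeZero M]

attribute [local instance] Igusa.algebraF1

section Inert

variable (A : ValuationSubring Qb) {p : ℕ} [Fact p.Prime] (hA : A.LiesOverPrime p)
  (hpM : ¬ p ∣ M) (hM : 1 < M)
variable {Fk' : Type*} [Field Fk'] [Algebra (FRes A 1) Fk']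
  [Algebra (IsLocalRing.ResidueField A) Fk']
  [IsScalarTower (IsLocalRing.ResidueField A) (FRes A 1) Fk']
  [IsScalarTower Qb (FBar 1) (FB1 M)]
  (I : InertInput (baseDatum A hA) (FB1 M) Fk')

include hpM hM in
/-- **every `τ_(0,b)` lies in the valuation ring of the inert datum** -/
theorem tauBarB_mem_datum {b : ℤ} (hb : ¬ (M : ℤ) ∣ b) : tauBarB hb ∈ I.datum.O := by
  refine mem_valuationSubring_of_isIntegralElem I.datum.O _ ?_
    (isIntegralElem_tauBarB A hA hpM hM hb)
  intro r
  exact I.algebraMap_mem_datum r.2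

include hpM hM in
/-- **`τ̄_(0,b)` is the expansion of an element of the residue field of the inert datum** -/
theorem tauRes_mem_range (ιk' : Fk' →+* LaurentSeries (IsLocalRing.ResidueField A))
    (hcompat : SeriesCompat I.datum (laurentBaseChange Qb (F1 M)).val.toRingHom ιk')
    {b : ℤ} (hb : ¬ (M : ℤ) ∣ b) :
    ∃ y : Fk', ιk' y = tauqL (IsLocalRing.ResidueField A) M (zRes A M) b := by
  have hx := tauBarB_mem_datum A hA hpM hM I hb
  obtain ⟨h', hred⟩ := hcompat (tauBarB hb) hx
  refine ⟨I.datum.red ⟨tauBarB hb, hx⟩, ?_⟩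
  rw [← hred]
  have h1 := fracRed_toL (tauqA hA hpM b)
  rw [toK_tauqA] at h1
  rw [← h1]
  congr 1
  exact Subtype.ext (toL_tauqA hA hpM b).symm

include hpM hM in
/-- **`FRes1 A M ⊆ ιk'(Fk')`**: if moreover `j̄` is in the image -/
theorem FRes1_le_of_inert (Fk'' : IntermediateField (IsLocalRing.ResidueField A)
      (LaurentSeries (IsLocalRing.ResidueField A)))
    (ιk' : Fk' →+* LaurentSeries (IsLocalRing.ResidueField A))
    (hrange : ∀ y : Fk', ιk' y ∈ Fk'')
    (hj : jqModC (IsLocalRing.ResidueField A) ∈ Fk'')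
    (hcompat : SeriesCompat I.datum (laurentBaseChange Qb (F1 M)).val.toRingHom ιk') :
    FRes1 A M ≤ Fk'' := by
  rw [FRes1, genL, IntermediateField.adjoin_le_iff]
  rintro x (rfl | ⟨b, hb, rfl⟩)
  · exact hj
  · obtain ⟨y, hy⟩ := tauRes_mem_range A hA hpM hM I ιk' hcompat hb
    rw [← hy]
    exact hrange y

end Inert

end Fermat.Agent.S48lib.X1
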