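/-
S48lib / X1 / IgusaInst / InertF1  (helper3)

**The inert input of `X₁(M)` at a prime `p ∤ M`.**  From Igusa's theorem for `τ_(0,1)`
(`exists_P0_red_tauBar`): the residue field `FRes1 A M = k(j̄, τ̄_(0,b))` is `k(j̄)(τ̄_(0,1))`, with power
basis `1, τ̄, …, τ̄^{d-1}` over `FRes A 1 = k(j̄)`, and
`inertF1 : InertInput (baseDatum A hA) (FB1 M) (FRes1 A M)`, whose Gauss datum is the coefficientwise
reduction of `q`-expansions (`seriesCompat_inertF1`).
-/
import Fermat.Agent.S48lib.X1.IgusaInst.ResGen

set_option autoImplicit false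
set_option linter.unusedSectionVars false

noncomputable section

namespace Fermat.Agent.S48lib.X1

open scoped MatrixGroups
open ModularCurve Polynomial IsLocalRing
open Fermat.Agent.S18lib
open Igusa

local notation "Qb" => AlgebraicClosure ℚ

attribute [local instance] Igusa.algebraF1

variable (A : ValuationSubring Qb) (M : ℕ) [NeZero M]

/-- `τ̄ = τ̄_(0,1)` -/
def tauRes : LaurentSeries (IsLocalRing.ResidueField A) :=
  tauqL (IsLocalRing.ResidueField A) M (zRes A M) 1

/-- a field between `k(j̄, τ̄)` and … : the data needed to run the inert construction -/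
structure ResField where
  /-- the field -/
  E : IntermediateField (IsLocalRing.ResidueField A) (LaurentSeries (IsLocalRing.ResidueField A))
  hκ : modularFunctionFieldFullC (IsLocalRing.ResidueField A) 1 ≤ E
  ht : tauRes A M ∈ E
  hgen : E ≤ IntermediateField.adjoin (IsLocalRing.ResidueField A)
    {jqModC (IsLocalRing.ResidueField A), tauRes A M}

variable {A M}

namespace ResField

variable (R : ResField A M)

set_option synthInstance.maxHeartbeats 400000 in
instance instFieldE : Field ↥R.E := inferInstance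

set_option synthInstance.maxHeartbeats 400000 in
instance instAlgebraE : Algebra (IsLocalRing.ResidueField A) ↥R.E := inferInstance

set_option synthInstance.maxHeartbeats 400000 in
instance instAlgebraELaurent :
    Algebra ↥R.E (LaurentSeries (IsLocalRing.ResidueField A)) := inferInstance

/-- the inclusion `k(j̄) = FRes A 1 ⊆ E` -/
@[reducible] def incl : FRes A 1 →ₐ[IsLocalRing.ResidueField A] ↥R.E := IntermediateField.inclusion R.hκ

@[simp] theorem coe_incl (x : FRes A 1) :
    ((R.incl x : ↥R.E) : LaurentSeries (IsLocalRing.ResidueField A)) = x :=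
  IntermediateField.coe_inclusion R.hκ x

instance algebra : Algebra (FRes A 1) ↥R.E := R.incl.toRingHom.toAlgebra

theorem algebraMap_apply (x : FRes A 1) : algebraMap (FRes A 1) ↥R.E x = R.incl x := rfl

instance isScalarTower : IsScalarTower (IsLocalRing.ResidueField A) (FRes A 1) ↥R.E :=
  IsScalarTower.of_algebraMap_eq fun c => (R.incl.commutes c).symm

/-- `τ̄` in `E` -/
def t : ↥R.E := ⟨tauRes A M, R.ht⟩

/-- `j̄` in `FRes A 1` -/
def jk : FRes A 1 := ⟨jqModC (IsLocalRing.ResidueField A), by
  have h := IntermediateField.subset_adjoin (IsLocalRing.ResidueField A)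
    (divisorExpansionsC (IsLocalRing.ResidueField A) 1)
    (mem_divisorExpansionsC (IsLocalRing.ResidueField A) 1 (one_dvd 1))
  rwa [qExpand_one_apply] at h⟩

theorem coe_eval₂ (P : (FRes A 1)[X]) :
    ((Polynomial.aeval R.t P : ↥R.E) : LaurentSeries (IsLocalRing.ResidueField A)) =
      eval₂ (inclRes A 1) (tauRes A M) P := by
  rw [Polynomial.aeval_def]
  have h := Polynomial.hom_eval₂ P (algebraMap (FRes A 1) ↥R.E) R.E.val.toRingHom R.t
  refine h.trans ?_
  congr 1

set_option synthInstance.maxHeartbeats 400000 in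
/-- `E = k(j̄)(τ̄)` as `k(j̄)`-algebras -/
theorem adjoin_t_eq_top (ht : IsIntegral (FRes A 1) R.t) :
    Algebra.adjoin (FRes A 1) {R.t} = (⊤ : Subalgebra (FRes A 1) ↥R.E) := by
  have h2 := IntermediateField.adjoin_simple_toSubalgebra_of_isAlgebraic ht.isAlgebraic
  rw [← h2]
  have h3 : IntermediateField.adjoin (FRes A 1) {R.t} =
      (⊤ : IntermediateField (FRes A 1) ↥R.E) := by
    rw [eq_top_iff]
    intro x _
    -- `x ∈ k(jE, tE)`
    have hx : (x : LaurentSeries (IsLocalRing.ResidueField A)) ∈
        IntermediateField.adjoin (IsLocalRing.ResidueField A)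
          {jqModC (IsLocalRing.ResidueField A), tauRes A M} := R.hgen x.2
    have hmap : (IntermediateField.adjoin (IsLocalRing.ResidueField A)
        ({R.incl jk, R.t} : Set ↥R.E)).map R.E.val =
        IntermediateField.adjoin (IsLocalRing.ResidueField A)
          {jqModC (IsLocalRing.ResidueField A), tauRes A M} := by
      rw [IntermediateField.adjoin_map, Set.image_pair]
      rfl
    rw [← hmap] at hx
    obtain ⟨y, hy, hyx⟩ := (IntermediateField.mem_map _).1 hx
    have hxy : x = y := Subtype.ext hyx.symm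
    rw [hxy]
    have hle : IntermediateField.adjoin (IsLocalRing.ResidueField A)
        ({R.incl jk, R.t} : Set ↥R.E) ≤
        (IntermediateField.adjoin (FRes A 1) {R.t}).restrictScalars
          (IsLocalRing.ResidueField A) := by
      rw [IntermediateField.adjoin_le_iff]
      rintro s (rfl | rfl)
      · exact (IntermediateField.adjoin (FRes A 1) {R.t}).algebraMap_mem jk
      · exact IntermediateField.subset_adjoin (FRes A 1) _ rfl
    exact hle hy
  rw [h3]
  rfl

/-! ### the inert input -/

variable {p : ℕ} [Fact p.Prime] (hA : A.LiesOverPrime p) (hpM : ¬ p ∣ M) (hM : 1 < M)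

/-- the lift `P₀ ∈ B₀[X]` of the minimal polynomial of `τ_(0,1)` -/
def P0 : (baseDatum A hA).O[X] := (exists_P0_red_tauBar A hA hpM hM).choose

theorem P0_monic : (P0 hA hpM hM).Monic := (exists_P0_red_tauBar A hA hpM hM).choose_spec.1

theorem P0_map_subtype :
    (P0 hA hpM hM).map (baseDatum A hA).O.subtype = minpoly (FBar 1) (tauBar hM) :=
  (exists_P0_red_tauBar A hA hpM hM).choose_spec.2.1

theorem P0_natDegree :
    (P0 hA hpM hM).natDegree = Fintype.card (SL(2, ℤ) ⧸ Wp.pmGamma1 M) :=
  (exists_P0_red_tauBar A hA hpM hM).choose_spec.2.2.1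

theorem P0_irreducible : Irreducible ((P0 hA hpM hM).map (baseDatum A hA).red) :=
  (exists_P0_red_tauBar A hA hpM hM).choose_spec.2.2.2.1

theorem P0_separable : ((P0 hA hpM hM).map (baseDatum A hA).red).Separable :=
  (exists_P0_red_tauBar A hA hpM hM).choose_spec.2.2.2.2.1

theorem P0_eval₂ :
    eval₂ (inclRes A 1) (tauRes A M) ((P0 hA hpM hM).map (baseDatum A hA).red) = 0 :=
  (exists_P0_red_tauBar A hA hpM hM).choose_spec.2.2.2.2.2

theorem aeval_t_P0 :
    Polynomial.aeval R.t ((P0 hA hpM hM).map (baseDatum A hA).red) = 0 := by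
  apply Subtype.ext
  rw [R.coe_eval₂]
  exact P0_eval₂ hA hpM hM

include hA hpM hM in
theorem isIntegral_t : IsIntegral (FRes A 1) R.t :=
  ⟨_, (P0_monic hA hpM hM).map _, R.aeval_t_P0 hA hpM hM⟩

theorem minpoly_t :
    minpoly (FRes A 1) R.t = (P0 hA hpM hM).map (baseDatum A hA).red :=
  (minpoly.eq_of_irreducible_of_monic (P0_irreducible hA hpM hM) (R.aeval_t_P0 hA hpM hM)
    ((P0_monic hA hpM hM).map _)).symm

/-- the power basis `1, τ̄, …` of `E` over `k(j̄)` -/
def pbk : PowerBasis (FRes A 1) ↥R.E :=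
  PowerBasis.ofAdjoinEqTop (R.isIntegral_t hA hpM hM) (R.adjoin_t_eq_top (R.isIntegral_t hA hpM hM))

@[simp] theorem pbk_gen : (R.pbk hA hpM hM).gen = R.t := rfl

/-- **the inert input** -/
def inert : InertInput (baseDatum A hA) (FB1 M) ↥R.E where
  pb := pbF1 hM
  pbk := R.pbk hA hpM hM
  pO := P0 hA hpM hM
  monic := P0_monic hA hpM hM
  map_subtype := P0_map_subtype hA hpM hM
  map_red := (R.minpoly_t hA hpM hM).symm

@[simp] theorem inert_t : (R.inert hA hpM hM).t = tauBar hM := rfl

@[simp] theorem inert_tk : (R.inert hA hpM hM).tk = R.t := rfl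

theorem inert_d :
    (R.inert hA hpM hM).d = Fintype.card (SL(2, ℤ) ⧸ Wp.pmGamma1 M) := P0_natDegree hA hpM hM

theorem separable_minpoly_tk :
    (minpoly (FRes A 1) (R.inert hA hpM hM).tk).Separable := by
  rw [inert_tk, R.minpoly_t hA hpM hM]
  exact P0_separable hA hpM hM

/-- **the Gauss datum of the inert input is the coefficientwise reduction of `q`-expansions** -/
theorem seriesCompat_inert_datum :
    haveI := isScalarTower_F1 M
    SeriesCompat (R.inert hA hpM hM).datum (laurentBaseChange Qb (F1 M)).val.toRingHom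
      R.E.val.toRingHom := by
  haveI := isScalarTower_F1 M
  refine seriesCompat_inert (R.inert hA hpM hM)
    (seriesCompat_gaussDatum A 1 (not_dvd_one_of_prime (ℓ := p)) hA) _ _ ?_ ?_
    (tauqA hA hpM 1) ?_ ?_
  · intro x
    exact coe_inclF1 M x
  · intro x
    exact R.coe_incl x
  · rw [inert_t, toL_tauqA]
    rfl
  · rw [inert_tk, toK_tauqA]
    rfl

end ResField

/-! ### `FRes1 A M = k(j̄)(τ̄_(0,1))` -/

variable (A M)

theorem fullC_one_le_of_jq_mem
    {E : IntermediateField (IsLocalRing.ResidueField A) (LaurentSeries (IsLocalRing.ResidueField A))}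
    (hj : jqModC (IsLocalRing.ResidueField A) ∈ E) :
    modularFunctionFieldFullC (IsLocalRing.ResidueField A) 1 ≤ E := by
  rw [modularFunctionFieldFullC, IntermediateField.adjoin_le_iff]
  rintro x ⟨d, hd, hd1, rfl⟩
  have : d = 1 := Nat.dvd_one.mp hd1
  subst this
  rw [qExpand_one_apply]
  exact hj

/-- the residue field datum `k(j̄, τ̄)` -/
def resAdj : ResField A M where
  E := IntermediateField.adjoin (IsLocalRing.ResidueField A)
    {jqModC (IsLocalRing.ResidueField A), tauRes A M}
  hκ := fullC_one_le_of_jq_mem A (IntermediateField.subset_adjoin _ _ (Or.inl rfl))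
  ht := IntermediateField.subset_adjoin _ _ (Or.inr rfl)
  hgen := le_rfl

variable {A M} {p : ℕ} [Fact p.Prime] (hA : A.LiesOverPrime p) (hpM : ¬ p ∣ M) (hM : 1 < M)

include hA hpM hM in
/-- **`FRes1 A M = k(j̄, τ̄_(0,1))`**: all the `τ̄_(0,b)` are rational functions of `j̄`, `τ̄_(0,1)` -/
theorem FRes1_eq_adjoin :
    FRes1 A M = IntermediateField.adjoin (IsLocalRing.ResidueField A)
      {jqModC (IsLocalRing.ResidueField A), tauRes A M} := by
  haveI := isScalarTower_F1 M
  apply le_antisymm
  · exact FRes1_le_of_inert A hA hpM hM ((resAdj A M).inert hA hpM hM) (resAdj A M).E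
      (resAdj A M).E.val.toRingHom (fun y => y.2)
      (IntermediateField.subset_adjoin _ _ (Or.inl rfl))
      ((resAdj A M).seriesCompat_inert_datum hA hpM hM)
  · rw [IntermediateField.adjoin_le_iff]
    rintro x (rfl | rfl)
    · exact jqModC_mem_FRes1 A M
    · exact tauqL_mem_FRes1 A M (not_dvd_one hM)

/-- the residue field datum `FRes1 A M` -/
@[reducible] def resF1 : ResField A M where
  E := FRes1 A M
  hκ := fullC_one_le_of_jq_mem A (jqModC_mem_FRes1 A M)
  ht := tauqL_mem_FRes1 A M (not_dvd_one hM)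
  hgen := (FRes1_eq_adjoin hA hpM hM).le

set_option synthInstance.maxHeartbeats 400000 in
instance instFieldFRes1 : Field ↥(FRes1 A M) := inferInstance

set_option synthInstance.maxHeartbeats 400000 in
instance instAlgebraFRes1 : Algebra (IsLocalRing.ResidueField A) ↥(FRes1 A M) := inferInstance

set_option synthInstance.maxHeartbeats 400000 in
instance instAlgebraFRes1Laurent :
    Algebra ↥(FRes1 A M) (LaurentSeries (IsLocalRing.ResidueField A)) := inferInstance

variable (A M) in
/-- the inclusion `k(j̄) = FRes A 1 ⊆ FRes1 A M` -/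
@[reducible] def inclRes1 : FRes A 1 →ₐ[IsLocalRing.ResidueField A] ↥(FRes1 A M) :=
  IntermediateField.inclusion (fullC_one_le_of_jq_mem A (jqModC_mem_FRes1 A M))

@[simp] theorem coe_inclRes1 (x : FRes A 1) :
    ((inclRes1 A M x : ↥(FRes1 A M)) : LaurentSeries (IsLocalRing.ResidueField A)) = x :=
  IntermediateField.coe_inclusion _ x

variable (A M) in
/-- the structure of `k(j̄)`-algebra on `FRes1 A M` -/
@[instance_reducible]
def algebraRes1 : Algebra (FRes A 1) ↥(FRes1 A M) := (inclRes1 A M).toRingHom.toAlgebra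

attribute [local instance] algebraRes1

theorem algebraMap_Res1_apply (x : FRes A 1) :
    algebraMap (FRes A 1) ↥(FRes1 A M) x = inclRes1 A M x := rfl

variable (A M) in
theorem isScalarTower_Res1 :
    IsScalarTower (IsLocalRing.ResidueField A) (FRes A 1) ↥(FRes1 A M) :=
  IsScalarTower.of_algebraMap_eq fun c => ((inclRes1 A M).commutes c).symm

/-- **the inert input of `X₁(M)` at `A`**: `FBar₁(M) = ℚ̄(j)(τ_(0,1))`, `FRes1 A M = k(j̄)(τ̄_(0,1))`, and
both minimal polynomials come from `P₀ ∈ B₀[X]` -/
def inertF1 : InertInput (baseDatum A hA) (FB1 M) ↥(FRes1 A M) :=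
  (resF1 hA hpM hM).inert hA hpM hM

@[simp] theorem inertF1_t : (inertF1 hA hpM hM).t = tauBar hM := rfl

theorem coe_inertF1_tk :
    (((inertF1 hA hpM hM).tk : ↥(FRes1 A M)) : LaurentSeries (IsLocalRing.ResidueField A)) =
      tauqL (IsLocalRing.ResidueField A) M (zRes A M) 1 := rfl

theorem inertF1_tk :
    (inertF1 hA hpM hM).tk = tauRes1 A M 1 (not_dvd_one hM) := rfl

theorem inertF1_d :
    (inertF1 hA hpM hM).d = Fintype.card (SL(2, ℤ) ⧸ Wp.pmGamma1 M) :=
  (resF1 hA hpM hM).inert_d hA hpM hM

/-- the residue extension `FRes1 A M / k(j̄)` is generated by a separable element -/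
theorem separable_minpoly_inertF1_tk :
    (minpoly (FRes A 1) (inertF1 hA hpM hM).tk).Separable :=
  (resF1 hA hpM hM).separable_minpoly_tk hA hpM hM

/-- **the Gauss datum of `X₁(M)` at `A` is the coefficientwise reduction of `q`-expansions** -/
theorem seriesCompat_inertF1 :
    haveI := isScalarTower_F1 M
    haveI := isScalarTower_Res1 A M
    SeriesCompat (inertF1 hA hpM hM).datum (laurentBaseChange Qb (F1 M)).val.toRingHom
      (FRes1 A M).val.toRingHom :=
  (resF1 hA hpM hM).seriesCompat_inert_datum hA hpM hM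

end Fermat.Agent.S48lib.X1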